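import Mathlib

/-!
# PROGRAM G (S56), LOC-flat ORD case, node OF-5 (helper26), file 1: two-step dimension counts

Pure linear algebra over a field `k` (Mathlib only).

* `finrank_range_le_two_step` : `f : V → H`, `i : W → V`, `g : V → X` with `ker g ≤ range i`, `X` and
  `range (f ∘ i)` finite-dimensional; then `range f` is finite-dimensional and
  `dim range f ≤ dim range (f ∘ i) + dim X`.
* `finrank_range_le_of_ker_le` : `ker g ≤ ker f` ⇒ `dim range f ≤ dim X`.
* `finrank_range_le_of_marked` : the count used for OF-5: `π : V → H`, `i : W → V`,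
  `u : V → X` (`dim X ≤ 1`, `ker u ≤ range i`), `w : W → Y` (`dim Y ≤ 1`, `ker w ≤ ker (π ∘ i)`), a
  marked element `zH : W` with `π (i zH) = 0`, and a number `h0` with `w zH = 0 → 1 ≤ h0`.  Then
  `dim range π ≤ h0 + 1`.
-/

set_option autoImplicit false
set_option linter.style.haveILetI false

open Module

namespace Fermat.Agent.TW.LocFlat.OrdCount

variable {k : Type*} [Field k]
variable {V W H X Y : Type*} [AddCommGroup V] [Module k V] [AddCommGroup W] [Module k W]
  [AddCommGroup H] [Module k H] [AddCommGroup X] [Module k X] [AddCommGroup Y] [Module k Y]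

/-- **Two-step count.** -/
theorem finrank_range_le_two_step [Module.Finite k X] (f : V →ₗ[k] H) (i : W →ₗ[k] V)
    (g : V →ₗ[k] X) (hg : LinearMap.ker g ≤ LinearMap.range i)
    [Module.Finite k (LinearMap.range (f.comp i))] :
    Module.Finite k (LinearMap.range f) ∧
      finrank k (LinearMap.range f) ≤ finrank k (LinearMap.range (f.comp i)) + finrank k X := by
  classical
  -- a basis of `range g` and preimages
  set r := finrank k (LinearMap.range g) with hr
  let b : Basis (Fin r) k (LinearMap.range g) := Module.finBasis k (LinearMap.range g)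
  have hpre : ∀ j : Fin r, ∃ v : V, g v = (b j : X) := fun j => (b j).2
  choose v hv using hpre
  -- `range f ≤ range (f ∘ i) ⊔ span (f v_j)`
  have hle : LinearMap.range f ≤
      LinearMap.range (f.comp i) ⊔ Submodule.span k (Set.range fun j => f (v j)) := by
    rintro _ ⟨x, rfl⟩
    set c := b.repr ⟨g x, x, rfl⟩ with hc
    have h1 : g x = ∑ j, c j • g (v j) := by
      have h2 := b.sum_repr ⟨g x, x, rfl⟩
      have h3 : ((∑ j, c j • b j : ↥(LinearMap.range g)) : X) = g x := congrArg Subtype.val h2
      rw [← h3, Submodule.coe_sum]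
      refine Finset.sum_congr rfl fun j _ => ?_
      rw [Submodule.coe_smul, hv j]
    have h4 : x - ∑ j, c j • v j ∈ LinearMap.ker g := by
      rw [LinearMap.mem_ker, map_sub, map_sum, h1, sub_eq_zero]
      refine Finset.sum_congr rfl fun j _ => ?_
      rw [map_smul]
    obtain ⟨z, hz⟩ := hg h4
    have h5 : f x = f (i z) + ∑ j, c j • f (v j) := by
      rw [hz, map_sub, map_sum]
      simp only [map_smul]
      abel
    rw [h5]
    refine Submodule.add_mem _ (Submodule.mem_sup_left ⟨z, rfl⟩) (Submodule.mem_sup_right ?_)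
    refine Submodule.sum_mem _ fun j _ => Submodule.smul_mem _ _ (Submodule.subset_span ⟨j, rfl⟩)
  haveI : Module.Finite k (Submodule.span k (Set.range fun j => f (v j))) :=
    FiniteDimensional.span_of_finite k (Set.finite_range _)
  haveI : Module.Finite k ↥(LinearMap.range (f.comp i) ⊔
      Submodule.span k (Set.range fun j => f (v j))) := Submodule.finiteDimensional_sup _ _
  refine ⟨Submodule.finiteDimensional_of_le hle, ?_⟩
  have h1 := Submodule.finrank_mono hle
  have h2 := Submodule.finrank_add_le_finrank_add_finrank (LinearMap.range (f.comp i))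
    (Submodule.span k (Set.range fun j => f (v j)))
  have h3 : finrank k (Submodule.span k (Set.range fun j => f (v j))) ≤ r := by
    have := finrank_range_le_card (R := k) fun j => f (v j)
    rwa [Fintype.card_fin] at this
  have h4 : r ≤ finrank k X := Submodule.finrank_le _
  omega

/-- `ker g ≤ ker f` ⇒ `dim range f ≤ dim X`. -/
theorem finrank_range_le_of_ker_le [Module.Finite k X] (f : V →ₗ[k] H) (g : V →ₗ[k] X)
    (hg : LinearMap.ker g ≤ LinearMap.ker f) :
    Module.Finite k (LinearMap.range f) ∧ finrank k (LinearMap.range f) ≤ finrank k X := by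
  have h0 : LinearMap.range (f.comp (LinearMap.ker f).subtype) = ⊥ := by
    rw [eq_bot_iff]
    rintro _ ⟨x, rfl⟩
    rw [Submodule.mem_bot]
    exact x.2
  haveI : Module.Finite k (LinearMap.range (f.comp (LinearMap.ker f).subtype)) := by
    rw [h0]; infer_instance
  have h1 := finrank_range_le_two_step f (LinearMap.ker f).subtype g
    (by rw [Submodule.range_subtype]; exact hg)
  rw [h0, finrank_bot, zero_add] at h1
  exact h1

/-- **The OF-5 count.** -/
theorem finrank_range_le_of_marked [Module.Finite k X] [Module.Finite k Y] (π : V →ₗ[k] H)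
    (i : W →ₗ[k] V) (u : V →ₗ[k] X) (hu : LinearMap.ker u ≤ LinearMap.range i)
    (hX : finrank k X ≤ 1) (w : W →ₗ[k] Y) (hw : LinearMap.ker w ≤ LinearMap.ker (π.comp i))
    (hY : finrank k Y ≤ 1) (zH : W) (hzH : π (i zH) = 0) (h0 : ℕ) (hh0 : w zH = 0 → 1 ≤ h0) :
    Module.Finite k (LinearMap.range π) ∧ finrank k (LinearMap.range π) ≤ h0 + 1 := by
  obtain ⟨hfin, hle⟩ := finrank_range_le_of_ker_le (π.comp i) w hw
  haveI := hfin
  obtain ⟨hfin', hle'⟩ := finrank_range_le_two_step π i u hu
  refine ⟨hfin', ?_⟩
  by_cases hz : w zH = 0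
  · have := hh0 hz
    omega
  · -- `w zH` spans `Y`, so `π ∘ i = 0`
    have hzero : LinearMap.range (π.comp i) = ⊥ := by
      rw [eq_bot_iff]
      rintro _ ⟨z, rfl⟩
      rw [Submodule.mem_bot]
      have hY1 : finrank k Y = 1 := by
        have : 0 < finrank k Y := Module.finrank_pos_iff_exists_ne_zero.mpr ⟨w zH, hz⟩
        omega
      obtain ⟨c, hc⟩ := (finrank_eq_one_iff_of_nonzero' (w zH) hz).mp hY1 (w z)
      have h1 : z - c • zH ∈ LinearMap.ker w := by
        rw [LinearMap.mem_ker, map_sub, map_smul, hc, sub_self]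
      have h2 := hw h1
      rw [LinearMap.mem_ker, map_sub, map_smul, LinearMap.comp_apply, LinearMap.comp_apply, hzH,
        smul_zero, sub_zero] at h2
      exact h2
    rw [hzero, finrank_bot] at hle'
    omega

end Fermat.Agent.TW.LocFlat.OrdCount
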