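import Mathlib
import Fermat.Agent.TW.LocOrd.Abs
import Fermat.Agent.TW.LocFlat.OrdCount.LinAlg

/-!
# PROGRAM G (S56), LOC-flat ORD case, node OF-5 (helper26), file 2: the abstract count in LC language

`(G, Lv)` a level group, `M` a finite-dimensional `k`-representation, `N ≤ M` a subspace, `H ∈ M ∖ N`,
`Z ≤ Z¹_LC(G, M)` a `k`-subspace of LC cocycles (given as a subspace of `G → M`), `Z_N := Z ⊓ ZN`
its `N`-valued members (`ZN` of `TW/LocOrd/Abs.lean`).  Hypotheses: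

* (a) a linear map `u : Z → X`, `dim X ≤ 1`, whose kernel consists of `N`-valued cocycles
  (blueprint B.5: `c ↦ u ∈ Hom_ur(G_p, k)`);
* (b) a linear map `w : Z_N → Y`, `dim Y ≤ 1`, whose kernel consists of coboundaries `∂n`, `n ∈ N`
  (blueprint B.4 / OF-4: `dim Z_N / B¹(G_p, N) ≤ 1`);
* (c) `∂H ∈ Z_N`.

Conclusion (`finrank_range_classOf_le`): the image of `Z` in `LC.H1 Lv M` is finite-dimensional of
dimension `≤ dim M^G + 1`.
-/

set_option autoImplicit false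
set_option linter.unusedSectionVars false

open Module groupCohomology

namespace Fermat.Agent.TW.LocFlat.OrdCount

open Fermat.Agent.CFT Fermat.Agent.TW.LocOrd

variable {k G : Type} [Field k] [Group G] (Lv : LevelStructure G) (M : Rep.{0} k G)

/-- The class map on a subspace of LC cocycles. -/
def classOf (Z : Submodule k (G → M)) (hZ : Z ≤ LC.Z₁ Lv M) : ↥Z →ₗ[k] LC.H1 Lv M :=
  (LC.H1π Lv M).comp (Submodule.inclusion hZ)

theorem classOf_apply (Z : Submodule k (G → M)) (hZ : Z ≤ LC.Z₁ Lv M) (z : ↥Z) :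
    classOf Lv M Z hZ z = LC.H1π Lv M ⟨z.1, hZ z.2⟩ := rfl

theorem mem_range_classOf_iff (Z : Submodule k (G → M)) (hZ : Z ≤ LC.Z₁ Lv M) {x : LC.H1 Lv M} :
    x ∈ LinearMap.range (classOf Lv M Z hZ) ↔
      ∃ (c : G → M) (hc : c ∈ Z), LC.H1π Lv M ⟨c, hZ hc⟩ = x := by
  constructor
  · rintro ⟨z, rfl⟩
    exact ⟨z.1, z.2, rfl⟩
  · rintro ⟨c, hc, rfl⟩
    exact ⟨⟨c, hc⟩, rfl⟩

/-- Dictionary with the nested style (`Z' : Submodule k ↥(LC.Z₁ Lv M)`, as `valuedZ₁` of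
`TW/Ord/Count.lean`): take `Z := Z'.map (LC.Z₁ Lv M).subtype`. -/
theorem map_subtype_le (Z' : Submodule k ↥(LC.Z₁ Lv M)) :
    Z'.map (LC.Z₁ Lv M).subtype ≤ LC.Z₁ Lv M := by
  rintro _ ⟨z, -, rfl⟩
  exact z.2

theorem range_classOf_map_subtype (Z' : Submodule k ↥(LC.Z₁ Lv M)) :
    LinearMap.range (classOf Lv M (Z'.map (LC.Z₁ Lv M).subtype) (map_subtype_le Lv M Z')) =
      Z'.map (LC.H1π Lv M) := by
  ext x
  rw [mem_range_classOf_iff, Submodule.mem_map]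
  constructor
  · rintro ⟨c, ⟨z, hz, rfl⟩, rfl⟩
    exact ⟨z, hz, rfl⟩
  · rintro ⟨z, hz, rfl⟩
    exact ⟨z.1, ⟨z, hz, rfl⟩, rfl⟩

/-- **OF-5, abstract count.** -/
theorem finrank_range_classOf_le [FiniteDimensional k M] (N : Submodule k M) {H : M}
    (hHN : H ∉ N) (Z : Submodule k (G → M)) (hZ : Z ≤ LC.Z₁ Lv M)
    {X : Type*} [AddCommGroup X] [Module k X] [Module.Finite k X] (hX : finrank k X ≤ 1)
    (u : ↥Z →ₗ[k] X) (hu : ∀ z : ↥Z, u z = 0 → ∀ g, z.1 g ∈ N)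
    {Y : Type*} [AddCommGroup Y] [Module k Y] [Module.Finite k Y] (hY : finrank k Y ≤ 1)
    (w : ↥(Z ⊓ ZN Lv M N) →ₗ[k] Y)
    (hw : ∀ z : ↥(Z ⊓ ZN Lv M N), w z = 0 → ∃ n ∈ N, ∀ g, z.1 g = M.ρ g n - n)
    (hHZ : (fun g => M.ρ g H - H) ∈ Z) (hHN' : ∀ g, M.ρ g H - H ∈ N) :
    Module.Finite k (LinearMap.range (classOf Lv M Z hZ)) ∧
      finrank k (LinearMap.range (classOf Lv M Z hZ)) ≤ finrank k M.ρ.invariants + 1 := by
  have hHmem : (fun g => M.ρ g H - H) ∈ Z ⊓ ZN Lv M N := ⟨hHZ, hZ hHZ, hHN'⟩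
  refine finrank_range_le_of_marked (classOf Lv M Z hZ)
    (Submodule.inclusion (inf_le_left : Z ⊓ ZN Lv M N ≤ Z)) u ?_ hX w ?_ hY
    ⟨fun g => M.ρ g H - H, hHmem⟩ ?_ (finrank k M.ρ.invariants) ?_
  · -- `ker u ≤ range i`
    intro z hz
    have h1 : z.1 ∈ Z ⊓ ZN Lv M N := ⟨z.2, hZ z.2, hu z hz⟩
    exact ⟨⟨z.1, h1⟩, rfl⟩
  · -- `ker w ≤ ker (π ∘ i)`
    intro z hz
    obtain ⟨n, -, hn⟩ := hw z hz
    rw [LinearMap.mem_ker, LinearMap.comp_apply, classOf_apply, LC.H1π_eq_zero_iff]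
    exact ⟨n, funext fun g => (hn g).symm⟩
  · -- the class of `∂H` vanishes
    rw [classOf_apply, LC.H1π_eq_zero_iff]
    exact ⟨H, rfl⟩
  · -- `∂H ∈ ∂N` gives a nonzero invariant
    intro hz
    obtain ⟨n, hnN, hn⟩ := hw _ hz
    have hinv : H - n ∈ M.ρ.invariants := by
      rw [Representation.mem_invariants]
      intro g
      have := hn g
      have h1 : M.ρ g H - H = M.ρ g n - n := this
      rw [map_sub]
      calc M.ρ g H - M.ρ g n = (M.ρ g H - H) - (M.ρ g n - n) + (H - n) := by abel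
        _ = H - n := by rw [h1, sub_self, zero_add]
    have hne : (⟨H - n, hinv⟩ : ↥M.ρ.invariants) ≠ 0 := by
      intro h0
      have h1 : H - n = 0 := congrArg Subtype.val h0
      exact hHN (by rw [sub_eq_zero.mp h1]; exact hnN)
    have : 0 < finrank k M.ρ.invariants :=
      Module.finrank_pos_iff_exists_ne_zero.mpr ⟨_, hne⟩
    omega

end Fermat.Agent.TW.LocFlat.OrdCount
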